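import Fermat.Agent.ExponentialIntegral.Values
import Fermat.Agent.SiegelShidlovskii.SecondTheorem
import Mathlib.Combinatorics.Matroid.Rank.ENat
import Mathlib.Logic.Equiv.Fin.Basic

/-!
# The exponential integrals at several points

The series `exp (c z)`, `E_k (c z)` for integers `c` satisfy a system over `ℚ[z]` whose
transcendence degree is that of `exp z` and the `E_k (c z)`, so by Shidlovskii's second theorem
the values `exp α`, `E_k (q α)` at distinct rationals `q ≠ 0` are algebraically independent.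
-/

set_option autoImplicit false

noncomputable section

namespace FA.SineIntegral

open Finset
open scoped Nat
open FA.SiegelShidlovskii (IsEFunction cval)
open FA.ExponentialIntegral (eiSeries)

theorem isEFunction_rescale {g : PowerSeries ℚ} (hg : IsEFunction g) (c : ℤ) :
    IsEFunction (PowerSeries.rescale (c : ℚ) g) := by
  obtain ⟨C, hC, hd⟩ := hg
  refine ⟨C * (c.natAbs + 1), fun k => ?_, fun N => ?_⟩
  · rw [PowerSeries.coeff_rescale, mul_left_comm, abs_mul, abs_pow, mul_comm, Nat.cast_mul, mul_pow]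
    refine mul_le_mul (hC k) ?_ (by positivity) (by positivity)
    have h1 : |(c : ℚ)| ≤ ((c.natAbs + 1 : ℕ) : ℚ) := by
      push_cast
      rw [Nat.cast_natAbs, Int.cast_abs]
      linarith
    exact (pow_le_pow_left₀ (abs_nonneg _) h1 k).trans
      (pow_le_pow_right₀ (Nat.one_le_cast.2 (Nat.succ_pos _)) (Nat.le_succ k))
  · obtain ⟨d, hd0, hle, hz⟩ := hd N
    refine ⟨d, hd0, hle.trans (Nat.pow_le_pow_left (Nat.le_mul_of_pos_right _ (by omega)) _),
      fun k hk => ?_⟩
    obtain ⟨z, hz⟩ := hz k hk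
    exact ⟨c ^ k * z, by rw [PowerSeries.coeff_rescale]; push_cast; rw [hz]; ring⟩

theorem cval_rescale (g : PowerSeries ℚ) (c : ℤ) (z : ℂ) :
    cval (PowerSeries.rescale (c : ℚ) g) z = cval g ((c : ℂ) * z) := by
  refine tsum_congr fun k => ?_
  rw [PowerSeries.coeff_rescale, mul_pow]
  push_cast
  ring

theorem isAlgebraic_zpow {R : Type*} [CommRing R] [IsDomain R] [Algebra R ℂ] {x : ℂ}
    (h : IsAlgebraic R x) (c : ℤ) : IsAlgebraic R (x ^ c) := by
  rcases Int.eq_nat_or_neg c with ⟨n, rfl | rfl⟩
  · rw [zpow_natCast]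
    exact h.pow n
  · rw [zpow_neg, zpow_natCast]
    exact (h.pow n).inv

/-- The series of `exp`, the `E_(l + 1) (c a z)` and the `exp (c a z)`. -/
def pointSeries {r s : ℕ} (c : Fin r → ℤ) : Option (Fin r × Fin s) ⊕ Fin r → PowerSeries ℚ
  | .inl none => PowerSeries.exp ℚ
  | .inl (some p) => PowerSeries.rescale (c p.1 : ℚ) (eiSeries ((p.2 : ℕ) + 1))
  | .inr a => PowerSeries.rescale (c a : ℚ) (PowerSeries.exp ℚ)

/-- **The values at integer multiples of a point.** -/
theorem independent_integer_multiples {α : ℂ} (hα : IsAlgebraic ℚ α) (hα0 : α ≠ 0) {r s : ℕ}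
    {c : Fin r → ℤ} (hc0 : ∀ a, c a ≠ 0) (hci : Function.Injective c) :
    AlgebraicIndependent ℚ fun o : Option (Fin r × Fin s) =>
      o.elim (Complex.exp α) fun p => cval (eiSeries ((p.2 : ℕ) + 1)) ((c p.1 : ℂ) * α) := by
  classical
  let eσ : Option (Fin r × Fin s) ⊕ Fin r ≃ Fin _ := Fintype.equivFin _
  obtain ⟨f, hf⟩ : ∃ f, f = fun j => pointSeries c (eσ.symm j) := ⟨_, rfl⟩
  have hfe : ∀ b, f (eσ b) = pointSeries c b := fun b => by rw [hf]; simp
  have hE : ∀ j, IsEFunction (f j) := fun j => by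
    obtain ⟨b, rfl⟩ := eσ.surjective j
    rw [hfe]
    rcases b with (_ | p) | a
    · exact FA.SiegelShidlovskii.isEFunction_exp
    · exact isEFunction_rescale (FA.ExponentialIntegral.isEFunction_eiSeries _) _
    · exact isEFunction_rescale FA.SiegelShidlovskii.isEFunction_exp _
  -- the system
  have hsingle : ∀ (b : Option (Fin r × Fin s) ⊕ Fin r) (w : Polynomial ℚ),
      ∑ j, ((Pi.single (eσ b) w : _ → Polynomial ℚ) j : PowerSeries ℚ) * f j =
        (w : PowerSeries ℚ) * pointSeries c b := fun b w => by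
    rw [Finset.sum_eq_single (eσ b) (fun j _ hj => by rw [Pi.single_eq_of_ne hj]; simp)
      (fun h => absurd (mem_univ _) h), Pi.single_eq_same, hfe]
  have hcast : ∀ z : ℤ, ((z : Polynomial ℚ) : PowerSeries ℚ) = (z : PowerSeries ℚ) := fun z =>
    map_intCast (Polynomial.coeToPowerSeries.ringHom : Polynomial ℚ →+* PowerSeries ℚ) z
  have hrow : ∀ j, ∃ (q : Polynomial ℚ) (v : Fin _ → Polynomial ℚ),
      ((Polynomial.X : Polynomial ℚ) : PowerSeries ℚ) * PowerSeries.derivative ℚ (f j) =
        (q : PowerSeries ℚ) + ∑ i, (v i : PowerSeries ℚ) * f i := fun j => by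
    obtain ⟨b, rfl⟩ := eσ.surjective j
    rw [hfe, Polynomial.coe_X]
    rcases b with (_ | ⟨a, l⟩) | a
    · exact ⟨0, Pi.single (eσ (.inl none)) Polynomial.X, by
        rw [hsingle]; simp [pointSeries, PowerSeries.derivative_exp]⟩
    · rcases l with ⟨l, hl⟩
      rcases l with _ | l
      · refine ⟨-1, Pi.single (eσ (.inr a)) 1, ?_⟩
        rw [hsingle]
        simp [pointSeries, FA.ExponentialIntegral.X_mul_derivative_rescale,
          FA.ExponentialIntegral.X_mul_derivative_eiSeries, FA.ExponentialIntegral.eiSeries_zero]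
        ring
      · refine ⟨0, Pi.single (eσ (.inl (some (a, ⟨l, by omega⟩)))) 1, ?_⟩
        rw [hsingle]
        simp [pointSeries, FA.ExponentialIntegral.X_mul_derivative_rescale,
          FA.ExponentialIntegral.X_mul_derivative_eiSeries]
    · refine ⟨0, Pi.single (eσ (.inr a)) (Polynomial.C (c a : ℚ) * Polynomial.X), ?_⟩
      rw [hsingle]
      simp [pointSeries, FA.ExponentialIntegral.X_mul_derivative_rescale,
        PowerSeries.derivative_exp, PowerSeries.rescale_X, hcast]
  choose q Q hQ using hrow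
  -- the independent part
  let ψ : Fin (r * s + 1) ≃ Option (Fin r × Fin s) :=
    (finSuccEquiv (r * s)).trans (Equiv.optionCongr finProdFinEquiv.symm)
  let g : Fin (r * s + 1) → Fin _ := fun n => eσ (.inl (ψ n))
  have hg : Function.Injective g := eσ.injective.comp (Sum.inl_injective.comp ψ.injective)
  have hfg : f ∘ g = Fin.cons (PowerSeries.exp ℚ) fun i => PowerSeries.rescale
      (c (finProdFinEquiv.symm i).1 : ℚ) (eiSeries (((finProdFinEquiv.symm i).2 : ℕ) + 1)) := by
    funext n
    have hψ0 : ψ 0 = none := by simp only [ψ, Equiv.trans_apply, finSuccEquiv_zero]; rfl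
    have hψs : ∀ i, ψ i.succ = some (finProdFinEquiv.symm i) := fun i => by
      simp only [ψ, Equiv.trans_apply, finSuccEquiv_succ]; rfl
    refine Fin.cases ?_ (fun i => ?_) n
    · simp only [Function.comp_apply, g, hfe, hψ0, Fin.cons_zero, pointSeries]
    · simp only [Function.comp_apply, g, hfe, hψs, Fin.cons_succ, pointSeries]
  have hind : AlgebraicIndependent (Polynomial ℚ) (f ∘ g) := by
    rw [algebraicIndependent_iff, hfg]
    exact fun p hp => FA.ExponentialIntegral.multiples_independent finProdFinEquiv.symm c hc0 hci hp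
  have hS : AlgebraicIndepOn (Polynomial ℚ) f
      ((Finset.univ.image g : Finset (Fin _)) : Set (Fin _)) := by
    obtain ⟨S, hS'⟩ : ∃ S, S = (Finset.univ : Finset (Fin (r * s + 1))).image g := ⟨_, rfl⟩
    rw [← hS']
    have hmem : ∀ i ∈ S, ∃ n, g n = i := fun i hi => by
      rw [hS', Finset.mem_image] at hi
      obtain ⟨n, -, hn⟩ := hi
      exact ⟨n, hn⟩
    choose k hk using hmem
    have h := hind.comp (fun i : {x // x ∈ S} => k i.1 i.2) fun i j h =>
      Subtype.ext (by rw [← hk i.1 i.2, ← hk j.1 j.2]; exact congrArg g h)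
    simpa [AlgebraicIndepOn, Function.comp_def, hk] using h
  -- the values
  obtain ⟨val, hval⟩ : ∃ val : Fin (r * s + 1) → ℂ, val = fun n => cval (f (g n)) α := ⟨_, rfl⟩
  obtain ⟨U, hU, hUalg, -, -⟩ := FA.SiegelShidlovskii.exists_card_eq_trdeg_adjoin (R := ℚ) val
  have himg : (fun j => cval (f j) α) '' ((U.image g : Finset (Fin _)) : Set (Fin _)) =
      val '' (U : Set (Fin (r * s + 1))) := by
    rw [Finset.coe_image, Set.image_image, hval]
  have hexp : Complex.exp α = val (ψ.symm none) := by
    simp [hval, g, hfe, pointSeries, FA.SiegelShidlovskii.cval_exp]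
  have hcard := FA.SiegelShidlovskii.exists_values_of_algebraicIndepOn Polynomial.X q (Matrix.of Q)
    (f := f) (fun j => hQ j) hE hα hα0 (by simpa using hα0) (U := U.image g) (fun j => ?_) hS
  · rw [Finset.card_image_of_injective _ hg, Finset.card_image_of_injective _ hg, Finset.card_univ,
      Fintype.card_fin] at hcard
    have hUuniv : U = Finset.univ := Finset.eq_univ_of_card U
      (le_antisymm (by simpa using Finset.card_le_univ U) (by simpa using hcard))
    have h := hU.comp (fun o => ⟨ψ.symm o, by simp [hUuniv]⟩)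
      fun a b hab => ψ.symm.injective (congrArg Subtype.val hab)
    convert h using 1
    funext o
    rcases o with _ | p
    · simp [hval, g, hfe, pointSeries, FA.SiegelShidlovskii.cval_exp]
    · simp [hval, g, hfe, pointSeries, cval_rescale]
  · rw [himg]
    obtain ⟨b, rfl⟩ := eσ.surjective j
    rcases b with o | a
    · have h := hUalg (ψ.symm o)
      rw [show val (ψ.symm o) = cval (f (eσ (.inl o))) α by simp [hval, g]] at h
      exact h
    · have h := hUalg (ψ.symm none)
      rw [← hexp] at h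
      rw [hfe, show cval (pointSeries c (.inr a)) α = Complex.exp α ^ c a by
        rw [pointSeries, cval_rescale, FA.SiegelShidlovskii.cval_exp, Complex.exp_int_mul]]
      exact isAlgebraic_zpow h (c a)

/-- **The values at rational multiples of a point.** -/
theorem independent_rational_multiples {α : ℂ} (hα : IsAlgebraic ℚ α) (hα0 : α ≠ 0) {r s : ℕ}
    {q : Fin r → ℚ} (hq0 : ∀ a, q a ≠ 0) (hqi : Function.Injective q) :
    AlgebraicIndependent ℚ fun o : Option (Fin r × Fin s) =>
      o.elim (Complex.exp α) fun p => cval (eiSeries ((p.2 : ℕ) + 1)) ((q p.1 : ℂ) * α) := by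
  obtain ⟨M, hM⟩ : ∃ M, M = ∏ a, (q a).den := ⟨_, rfl⟩
  have hM0 : M ≠ 0 := hM ▸ Finset.prod_ne_zero_iff.2 fun a _ => (q a).den_pos.ne'
  choose k hk using fun a => hM ▸ Finset.dvd_prod_of_mem (fun a => (q a).den) (mem_univ a)
  have hc : ∀ a, (((q a).num * (k a : ℤ) : ℤ) : ℚ) = q a * M := fun a => by
    rw [hk a]
    push_cast
    rw [← mul_assoc, Rat.mul_den_eq_num]
  have hMq : (M : ℚ) ≠ 0 := Nat.cast_ne_zero.2 hM0
  have hMc : (M : ℂ) ≠ 0 := Nat.cast_ne_zero.2 hM0
  have h := independent_integer_multiples (s := s) (hα.mul (isAlgebraic_natCast M).inv)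
    (mul_ne_zero hα0 (inv_ne_zero hMc)) (c := fun a => (q a).num * (k a : ℤ))
    (fun a h0 => hq0 a (by
      have := hc a
      rw [h0, Int.cast_zero, eq_comm, mul_eq_zero] at this
      exact this.resolve_right hMq))
    (fun a b hab => hqi (mul_right_cancel₀ hMq (by rw [← hc, ← hc]; exact_mod_cast hab)))
  have hval : ∀ a, (((q a).num * (k a : ℤ) : ℤ) : ℂ) * (α * (M : ℂ)⁻¹) = (q a : ℂ) * α :=
    fun a => by
    have h1 := congrArg (fun x : ℚ => (x : ℂ)) (hc a)
    simp only [Rat.cast_intCast, Rat.cast_mul, Rat.cast_natCast] at h1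
    rw [h1]
    field_simp
  have hexp : Complex.exp α = Complex.exp (α * (M : ℂ)⁻¹) ^ M := by
    rw [← Complex.exp_nat_mul]
    congr 1
    field_simp
  have hrest := h.comp some (Option.some_injective _)
  simp only [Function.comp_def, Option.elim_some, hval] at hrest
  rw [hrest.option_iff_transcendental]
  intro halg
  rw [hexp] at halg
  have htr := h.transcendental_adjoin (i := (none : Option (Fin r × Fin s)))
    (s := Set.range some) (by simp)
  refine htr (IsAlgebraic.of_pow (Nat.pos_of_ne_zero hM0) ?_)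
  rw [← Set.range_comp]
  change IsAlgebraic (Algebra.adjoin ℚ (Set.range fun p : Fin r × Fin s =>
    cval (eiSeries ((p.2 : ℕ) + 1)) ((((q p.1).num * (k p.1 : ℤ) : ℤ) : ℂ) * (α * (M : ℂ)⁻¹)))) _
  rw [show (fun p : Fin r × Fin s => cval (eiSeries ((p.2 : ℕ) + 1))
      ((((q p.1).num * (k p.1 : ℤ) : ℤ) : ℂ) * (α * (M : ℂ)⁻¹))) =
    fun p => cval (eiSeries ((p.2 : ℕ) + 1)) ((q p.1 : ℂ) * α) from funext fun p => by rw [hval]]
  exact halg

/-- Elements algebraic over as many others show that the others are independent. -/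
theorem independent_of_isAlgebraic {n : ℕ} {x y : Fin n → ℂ} (hx : AlgebraicIndependent ℚ x)
    (h : ∀ i, IsAlgebraic (Algebra.adjoin ℚ (Set.range y)) (x i)) : AlgebraicIndependent ℚ y := by
  classical
  obtain ⟨U, hU, halg, -, -⟩ := FA.SiegelShidlovskii.exists_card_eq_trdeg_adjoin (R := ℚ) y
  obtain ⟨M, hM⟩ : ∃ M, M = AlgebraicIndependent.matroid ℚ ℂ := ⟨_, rfl⟩
  have hcl : ∀ (t : Set ℂ) z, IsAlgebraic (Algebra.adjoin ℚ t) z → z ∈ M.closure t :=
    fun t z hz => by
    rw [hM, AlgebraicIndependent.matroid_closure_eq]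
    exact (Subalgebra.mem_algebraicClosure _ _).2 hz
  have hxU : Set.range x ⊆ M.closure (y '' (U : Set (Fin n))) := by
    refine (Set.range_subset_iff.2 fun i => hcl _ _ (h i)).trans
      (M.closure_subset_closure_of_subset_closure ?_)
    exact Set.range_subset_iff.2 fun i => hcl _ _ (halg i)
  have hxi : M.Indep (Set.range x) := by
    rw [hM, AlgebraicIndependent.matroid_indep_iff]
    exact hx.to_subtype_range
  have h1 := hxi.encard_le_eRk_of_subset hxU
  rw [M.eRk_closure_eq] at h1
  have h2 := h1.trans ((M.eRk_le_encard _).trans (Set.encard_image_le _ _))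
  rw [← Set.image_univ, hx.injective.injOn.encard_image, Set.encard_univ,
    Set.encard_coe_eq_coe_finsetCard, ENat.card_eq_coe_fintype_card, Fintype.card_fin,
    Nat.cast_le] at h2
  have hUuniv : U = Finset.univ := Finset.eq_univ_of_card U
    (le_antisymm (by simpa using Finset.card_le_univ U) (by simpa using h2))
  exact hU.comp (fun i => ⟨i, by simp [hUuniv]⟩) fun a b hab => congrArg Subtype.val hab

end FA.SineIntegral
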