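import Mathlib.MeasureTheory.Integral.IntervalIntegral.FundThmCalculus
import Mathlib.Analysis.Complex.RealDeriv
import Fermat.Agent.SineIntegral.Points

/-!
# The sine and cosine integrals

`E₁ (i x) = -Cin x + i Si x` and `E₁ (±x) = Cinh x ± Shi x`, so the independence of the values of
`E₁` at `±α` gives that of the four integrals.
-/

set_option autoImplicit false

noncomputable section

namespace FA.SineIntegral

open Finset MeasureTheory
open FA.SiegelShidlovskii (IsEFunction cval cval_ofReal)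
open FA.ExponentialIntegral (eiSeries isEFunction_eiSeries)

theorem integral_eq_of_hasDerivAt {F F' h : ℝ → ℝ} (hF : ∀ t, HasDerivAt F (F' t) t)
    (hc : Continuous F') (h0 : F 0 = 0) (he : ∀ t, t ≠ 0 → h t = F' t) (x : ℝ) :
    ∫ t in (0 : ℝ)..x, h t = F x := by
  have h1 := intervalIntegral.integral_eq_sub_of_hasDerivAt (a := (0 : ℝ)) (b := x)
    (fun t _ => hF t) (hc.intervalIntegrable _ _)
  rw [h0, sub_zero] at h1
  rw [← h1]
  refine intervalIntegral.integral_congr_ae ?_
  filter_upwards [MeasureTheory.compl_mem_ae_iff.2 (measure_singleton (0 : ℝ))] with t ht _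
  exact he t ht

theorem mul_cval_derivative_eiSeries_one (z : ℂ) :
    z * cval (PowerSeries.derivative ℚ (eiSeries 1)) z = Complex.exp z - 1 := by
  have h := FA.SiegelShidlovskii.cval_mul FA.SiegelShidlovskii.isEFunction_X
    (isEFunction_eiSeries 1).derivative z
  have hX : cval (PowerSeries.X : PowerSeries ℚ) z = z := by
    rw [cval, tsum_eq_single 1 (fun n hn => by rw [PowerSeries.coeff_X, if_neg hn]; simp)]
    simp
  rw [FA.ExponentialIntegral.X_mul_derivative_eiSeries,
    FA.ExponentialIntegral.cval_eiSeries_zero, hX] at h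
  exact h.symm

theorem cval_eiSeries_at_zero : cval (eiSeries 1) 0 = 0 := by
  rw [cval, tsum_eq_single 0 (fun n hn => by rw [zero_pow hn, mul_zero])]
  simp [eiSeries]

theorem conj_cval (g : PowerSeries ℚ) (z : ℂ) :
    (starRingEnd ℂ) (cval g z) = cval g ((starRingEnd ℂ) z) := by
  rw [cval, Complex.conj_tsum]
  exact tsum_congr fun k => by rw [map_mul, map_pow, map_ratCast]

theorem continuous_cval {g : PowerSeries ℚ} (hg : IsEFunction g) : Continuous (cval g) :=
  continuous_iff_continuousAt.2 fun z => (hg.expGrowth.chasDerivAt z).continuousAt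

theorem hasDerivAt_cval_mul {g : PowerSeries ℚ} (hg : IsEFunction g) (w : ℂ) (t : ℝ) :
    HasDerivAt (fun s : ℝ => cval g ((s : ℂ) * w))
      (w * cval (PowerSeries.derivative ℚ g) ((t : ℂ) * w)) t := by
  have h := (hg.expGrowth.chasDerivAt ((t : ℂ) * w)).comp t
    ((hasDerivAt_id t).ofReal_comp.mul_const w)
  exact h.congr_deriv (by simp [mul_comm])

theorem derivative_eq_div (w : ℂ) {t : ℝ} (ht : t ≠ 0) :
    w * cval (PowerSeries.derivative ℚ (eiSeries 1)) ((t : ℂ) * w) =
      (Complex.exp ((t : ℂ) * w) - 1) / (t : ℂ) := by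
  rw [eq_div_iff (Complex.ofReal_ne_zero.2 ht)]
  linear_combination mul_cval_derivative_eiSeries_one ((t : ℂ) * w)

theorem integral_sinc (x : ℝ) :
    ∫ t in (0 : ℝ)..x, Real.sin t / t = (cval (eiSeries 1) ((x : ℂ) * Complex.I)).im := by
  refine integral_eq_of_hasDerivAt (F := fun s => (cval (eiSeries 1) ((s : ℂ) * Complex.I)).im)
    (F' := fun t => (Complex.I * cval (PowerSeries.derivative ℚ (eiSeries 1))
      ((t : ℂ) * Complex.I)).im) (fun t => ?_) ?_ ?_ (fun t ht => ?_) x
  · exact Complex.imCLM.hasFDerivAt.comp_hasDerivAt t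
      (hasDerivAt_cval_mul (isEFunction_eiSeries 1) Complex.I t)
  · exact Complex.continuous_im.comp (continuous_const.mul
      ((continuous_cval (isEFunction_eiSeries 1).derivative).comp
        (Complex.continuous_ofReal.mul continuous_const)))
  · simp [cval_eiSeries_at_zero]
  · rw [derivative_eq_div Complex.I ht, Complex.div_ofReal_im, Complex.sub_im,
      Complex.exp_ofReal_mul_I_im, Complex.one_im, sub_zero]

theorem integral_cin (x : ℝ) :
    ∫ t in (0 : ℝ)..x, (1 - Real.cos t) / t =
      -(cval (eiSeries 1) ((x : ℂ) * Complex.I)).re := by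
  refine integral_eq_of_hasDerivAt (F := fun s => -(cval (eiSeries 1) ((s : ℂ) * Complex.I)).re)
    (F' := fun t => -(Complex.I * cval (PowerSeries.derivative ℚ (eiSeries 1))
      ((t : ℂ) * Complex.I)).re) (fun t => ?_) ?_ ?_ (fun t ht => ?_) x
  · exact (Complex.reCLM.hasFDerivAt.comp_hasDerivAt t
      (hasDerivAt_cval_mul (isEFunction_eiSeries 1) Complex.I t)).neg
  · exact (Complex.continuous_re.comp (continuous_const.mul
      ((continuous_cval (isEFunction_eiSeries 1).derivative).comp
        (Complex.continuous_ofReal.mul continuous_const)))).neg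
  · simp [cval_eiSeries_at_zero]
  · rw [derivative_eq_div Complex.I ht, Complex.div_ofReal_re, Complex.sub_re,
      Complex.exp_ofReal_mul_I_re, Complex.one_re]
    ring

/-- `E₁` at a real point. -/
theorem val_derivative_eq_div {t : ℝ} (ht : t ≠ 0) :
    FA.SiegelShidlovskii.val (PowerSeries.derivative ℚ (eiSeries 1)) t =
      (Real.exp t - 1) / t := by
  rw [eq_div_iff ht, ← Complex.ofReal_inj]
  push_cast
  rw [← cval_ofReal, mul_comm]
  exact mul_cval_derivative_eiSeries_one (t : ℂ)

theorem continuous_val_derivative : Continuous fun t : ℝ =>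
    FA.SiegelShidlovskii.val (PowerSeries.derivative ℚ (eiSeries 1)) t :=
  continuous_iff_continuousAt.2 fun t =>
    ((isEFunction_eiSeries 1).derivative.expGrowth.hasDerivAt_val t).continuousAt

theorem hasDerivAt_val_neg (t : ℝ) :
    HasDerivAt (fun s : ℝ => FA.SiegelShidlovskii.val (eiSeries 1) (-s))
      (-FA.SiegelShidlovskii.val (PowerSeries.derivative ℚ (eiSeries 1)) (-t)) t :=
  (((isEFunction_eiSeries 1).expGrowth.hasDerivAt_val (-t)).comp t (hasDerivAt_neg t)).congr_deriv
    (by ring)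

theorem val_eiSeries_at_zero : FA.SiegelShidlovskii.val (eiSeries 1) 0 = 0 := by
  rw [← Complex.ofReal_inj, ← cval_ofReal, Complex.ofReal_zero, cval_eiSeries_at_zero]

theorem integral_shi (x : ℝ) : ∫ t in (0 : ℝ)..x, Real.sinh t / t =
    (FA.SiegelShidlovskii.val (eiSeries 1) x - FA.SiegelShidlovskii.val (eiSeries 1) (-x)) / 2 := by
  refine integral_eq_of_hasDerivAt
    (F := fun s => (FA.SiegelShidlovskii.val (eiSeries 1) s -
      FA.SiegelShidlovskii.val (eiSeries 1) (-s)) / 2)
    (fun t => (((isEFunction_eiSeries 1).expGrowth.hasDerivAt_val t).sub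
      (hasDerivAt_val_neg t)).div_const 2) ?_ ?_ (fun t ht => ?_) x
  · exact (continuous_val_derivative.sub
      (continuous_val_derivative.comp continuous_neg).neg).div_const 2
  · simp [val_eiSeries_at_zero]
  · rw [val_derivative_eq_div ht, val_derivative_eq_div (neg_ne_zero.2 ht), Real.sinh_eq]
    field_simp
    ring

theorem integral_cinh (x : ℝ) : ∫ t in (0 : ℝ)..x, (Real.cosh t - 1) / t =
    (FA.SiegelShidlovskii.val (eiSeries 1) x + FA.SiegelShidlovskii.val (eiSeries 1) (-x)) / 2 := by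
  refine integral_eq_of_hasDerivAt
    (F := fun s => (FA.SiegelShidlovskii.val (eiSeries 1) s +
      FA.SiegelShidlovskii.val (eiSeries 1) (-s)) / 2)
    (fun t => (((isEFunction_eiSeries 1).expGrowth.hasDerivAt_val t).add
      (hasDerivAt_val_neg t)).div_const 2) ?_ ?_ (fun t ht => ?_) x
  · exact (continuous_val_derivative.add
      (continuous_val_derivative.comp continuous_neg).neg).div_const 2
  · simp [val_eiSeries_at_zero]
  · rw [val_derivative_eq_div ht, val_derivative_eq_div (neg_ne_zero.2 ht), Real.cosh_eq]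
    field_simp
    ring

theorem integral_ein (x : ℝ) : ∫ t in (0 : ℝ)..x, (1 - Real.exp (-t)) / t =
    -FA.SiegelShidlovskii.val (eiSeries 1) (-x) := by
  refine integral_eq_of_hasDerivAt
    (F := fun s => -FA.SiegelShidlovskii.val (eiSeries 1) (-s))
    (fun t => (hasDerivAt_val_neg t).neg) ?_ ?_ (fun t ht => ?_) x
  · exact ((continuous_val_derivative.comp continuous_neg).neg).neg
  · simp [val_eiSeries_at_zero]
  · rw [val_derivative_eq_div (neg_ne_zero.2 ht)]
    field_simp
    ring

/-- The three values at `±α`. -/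
theorem independent_plus_minus {α : ℂ} (hα : IsAlgebraic ℚ α) (hα0 : α ≠ 0) :
    AlgebraicIndependent ℚ
      ![Complex.exp α, cval (eiSeries 1) α, cval (eiSeries 1) (-α)] := by
  have h := (independent_rational_multiples (s := 1) hα hα0 (q := ![1, -1])
    (fun a => by fin_cases a <;> simp)
    (fun a b hab => by fin_cases a <;> fin_cases b <;> simp_all <;> norm_num at hab)).comp
    ![none, some ((0 : Fin 2), (0 : Fin 1)), some ((1 : Fin 2), (0 : Fin 1))]
    (fun a b hab => by fin_cases a <;> fin_cases b <;> simp_all)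
  convert h using 1
  funext a
  fin_cases a <;> simp

theorem algebraicIndependent_ofReal_triple {a b c : ℝ}
    (h : AlgebraicIndependent ℚ ![(a : ℂ), (b : ℂ), (c : ℂ)]) :
    AlgebraicIndependent ℚ ![a, b, c] := by
  refine AlgebraicIndependent.of_comp (Complex.ofRealAm.restrictScalars ℚ) ?_
  convert h using 1
  funext i
  fin_cases i <;> rfl

/-- **`sin`, `Si`, `Cin` are algebraically independent at algebraic points.** -/
theorem independent_sine_cosine {x : ℝ} (hx : IsAlgebraic ℚ x) (hx0 : x ≠ 0) :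
    AlgebraicIndependent ℚ ![Real.sin x, ∫ t in (0 : ℝ)..x, Real.sin t / t,
      ∫ t in (0 : ℝ)..x, (1 - Real.cos t) / t] := by
  rw [integral_sinc, integral_cin]
  have hI : IsAlgebraic ℚ Complex.I :=
    IsAlgebraic.of_pow two_pos (by rw [Complex.I_sq]; exact isAlgebraic_one.neg)
  refine algebraicIndependent_ofReal_triple (independent_of_isAlgebraic (independent_plus_minus
    ((FA.SiegelShidlovskii.isAlgebraic_ofReal_iff'.2 hx).mul hI)
    (mul_ne_zero (Complex.ofReal_ne_zero.2 hx0) Complex.I_ne_zero)) ?_)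
  set A := cval (eiSeries 1) ((x : ℂ) * Complex.I) with hA
  set Y := Algebra.adjoin ℚ (Set.range ![(Real.sin x : ℂ), (A.im : ℂ), ((-A.re : ℝ) : ℂ)]) with hY
  have hmem : ∀ i, IsAlgebraic Y (![(Real.sin x : ℂ), (A.im : ℂ), ((-A.re : ℝ) : ℂ)] i) :=
    fun i => isAlgebraic_algebraMap (⟨_, Algebra.subset_adjoin ⟨i, rfl⟩⟩ : Y)
  have hs : IsAlgebraic Y (Real.sin x : ℂ) := hmem 0
  have him : IsAlgebraic Y (A.im : ℂ) := hmem 1
  have hre : IsAlgebraic Y (A.re : ℂ) := by
    have h := (hmem 2).neg
    simpa using h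
  have hI' : IsAlgebraic Y Complex.I := hI.extendScalars (algebraMap ℚ Y).injective
  have hcos : IsAlgebraic Y (Real.cos x : ℂ) := IsAlgebraic.of_pow two_pos (by
    rw [← Complex.ofReal_pow, Real.cos_sq', Complex.ofReal_sub, Complex.ofReal_one,
      Complex.ofReal_pow]
    exact isAlgebraic_one.sub (hs.pow 2))
  intro i
  fin_cases i
  · simp only [Fin.zero_eta, Matrix.cons_val_zero]
    rw [Complex.exp_mul_I, ← Complex.ofReal_cos, ← Complex.ofReal_sin]
    exact hcos.add (hs.mul hI')
  · simp only [Fin.mk_one, Matrix.cons_val_one, Matrix.cons_val_zero]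
    rw [← Complex.re_add_im A]
    exact hre.add (him.mul hI')
  · simp only [Fin.reduceFinMk, Matrix.cons_val]
    rw [show -((x : ℂ) * Complex.I) = (starRingEnd ℂ) ((x : ℂ) * Complex.I) by simp,
      ← conj_cval, ← hA, ← Complex.re_add_im A]
    simp only [map_add, map_mul, Complex.conj_ofReal, Complex.conj_I]
    exact hre.add (him.mul hI'.neg)

/-- **`exp`, `Shi`, `Cinh` are algebraically independent at algebraic points.** -/
theorem independent_hyperbolic {x : ℝ} (hx : IsAlgebraic ℚ x) (hx0 : x ≠ 0) :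
    AlgebraicIndependent ℚ ![Real.exp x, ∫ t in (0 : ℝ)..x, Real.sinh t / t,
      ∫ t in (0 : ℝ)..x, (Real.cosh t - 1) / t] := by
  rw [integral_shi, integral_cinh]
  refine algebraicIndependent_ofReal_triple (independent_of_isAlgebraic (independent_plus_minus
    (FA.SiegelShidlovskii.isAlgebraic_ofReal_iff'.2 hx) (Complex.ofReal_ne_zero.2 hx0)) ?_)
  obtain ⟨u, hu⟩ : ∃ u, u = FA.SiegelShidlovskii.val (eiSeries 1) x := ⟨_, rfl⟩
  obtain ⟨v, hv⟩ : ∃ v, v = FA.SiegelShidlovskii.val (eiSeries 1) (-x) := ⟨_, rfl⟩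
  rw [← hu, ← hv]
  set Y := Algebra.adjoin ℚ
    (Set.range ![(Real.exp x : ℂ), (((u - v) / 2 : ℝ) : ℂ), (((u + v) / 2 : ℝ) : ℂ)]) with hY
  have hmem : ∀ i, IsAlgebraic Y
      (![(Real.exp x : ℂ), (((u - v) / 2 : ℝ) : ℂ), (((u + v) / 2 : ℝ) : ℂ)] i) :=
    fun i => isAlgebraic_algebraMap (⟨_, Algebra.subset_adjoin ⟨i, rfl⟩⟩ : Y)
  intro i
  fin_cases i
  · simp only [Fin.zero_eta, Matrix.cons_val_zero]
    rw [← Complex.ofReal_exp]
    exact hmem 0
  · simp only [Fin.mk_one, Matrix.cons_val_one, Matrix.cons_val_zero]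
    rw [cval_ofReal, ← hu, show (u : ℂ) = (((u - v) / 2 : ℝ) : ℂ) + (((u + v) / 2 : ℝ) : ℂ) by
      push_cast; ring]
    exact (hmem 1).add (hmem 2)
  · simp only [Fin.reduceFinMk, Matrix.cons_val]
    rw [← Complex.ofReal_neg, cval_ofReal, ← hv,
      show (v : ℂ) = (((u + v) / 2 : ℝ) : ℂ) - (((u - v) / 2 : ℝ) : ℂ) by push_cast; ring]
    exact (hmem 2).sub (hmem 1)

/-- **`e`, `Ein 1`, `Ein 2` are algebraically independent.** -/
theorem independent_ein_one_two :
    AlgebraicIndependent ℚ ![Real.exp 1, ∫ t in (0 : ℝ)..1, (1 - Real.exp (-t)) / t,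
      ∫ t in (0 : ℝ)..2, (1 - Real.exp (-t)) / t] := by
  rw [integral_ein, integral_ein]
  have h := (independent_rational_multiples (s := 1) (α := (1 : ℂ)) isAlgebraic_one one_ne_zero
    (q := ![-1, -2]) (fun a => by fin_cases a <;> simp)
    (fun a b hab => by fin_cases a <;> fin_cases b <;> simp_all)).comp
    ![none, some ((0 : Fin 2), (0 : Fin 1)), some ((1 : Fin 2), (0 : Fin 1))]
    (fun a b hab => by fin_cases a <;> fin_cases b <;> simp_all)
  refine algebraicIndependent_ofReal_triple (independent_of_isAlgebraic h fun i => ?_)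
  set Y := Algebra.adjoin ℚ (Set.range ![(Real.exp 1 : ℂ),
    ((-FA.SiegelShidlovskii.val (eiSeries 1) (-1) : ℝ) : ℂ),
    ((-FA.SiegelShidlovskii.val (eiSeries 1) (-2) : ℝ) : ℂ)]) with hY
  have hmem : ∀ i, IsAlgebraic Y (![(Real.exp 1 : ℂ),
    ((-FA.SiegelShidlovskii.val (eiSeries 1) (-1) : ℝ) : ℂ),
    ((-FA.SiegelShidlovskii.val (eiSeries 1) (-2) : ℝ) : ℂ)] i) :=
    fun i => isAlgebraic_algebraMap (⟨_, Algebra.subset_adjoin ⟨i, rfl⟩⟩ : Y)
  fin_cases i
  · simpa using hmem 0
  · have h := (hmem 1).neg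
    simpa [← cval_ofReal] using h
  · have h := (hmem 2).neg
    simpa [← cval_ofReal] using h

end FA.SineIntegral
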